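import Fermat.Statements.S54
import Fermat.Agent.Lib.FrobeniusExists

/-!
Core of S54 (`R ↠ T`): everything except the final one-line statement.
-/

set_option autoImplicit false
open GaloisRep GaloisRep.DeformationRingData Polynomial

namespace Fermat.Agent.Alt.helper30

/-- The trace coefficient of a base-changed and conjugated representation lies in the range. -/
theorem charpoly_eq_map_of_equiv {R T : Type} [CommRing R] [IsLocalRing R] [CommRing T]
    [IsLocalRing T] (φ : R →+* T) (hφ : IsLocalHom φ) (ρ₁ : GaloisRepAdic R) (ρ₂ : GaloisRepAdic T)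
    (e : GaloisRepAdic.Equiv (ρ₁.baseChangeAlong φ hφ) ρ₂)
    (σ : AlgebraicClosure ℚ ≃ₐ[ℚ] AlgebraicClosure ℚ) :
    LinearMap.charpoly (ρ₂.ρ σ) = (LinearMap.charpoly (ρ₁.ρ σ)).map φ := by
  letI : Algebra R T := φ.toAlgebra
  have h1 : ρ₂.ρ σ = e.toLinearEquiv.conj ((ρ₁.baseChangeAlong φ hφ).ρ σ) := by
    apply LinearMap.ext
    intro x
    rw [LinearEquiv.conj_apply_apply, e.map_apply, LinearEquiv.apply_symm_apply]
  rw [h1, LinearEquiv.charpoly_conj]
  exact LinearMap.charpoly_baseChange (A := T) (ρ₁.ρ σ)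

end Fermat.Agent.Alt.helper30
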