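import Fermat.Statements.S54
import Fermat.Agent.Alt.helper30.S54Core

set_option autoImplicit false
open GaloisRep GaloisRep.DeformationRingData Polynomial

namespace Fermat.Agent.Alt.helper30

theorem S54_result {𝒪 : Type} [CommRing 𝒪] [IsDomain 𝒪] [IsDiscreteValuationRing 𝒪] [IsAdicComplete (IsLocalRing.maximalIdeal 𝒪) 𝒪] {ρbar : ResidualGaloisRep (IsLocalRing.ResidueField 𝒪)} {𝒟 : ∀ ⦃A : Type⦄ [CommRing A] [IsLocalRing A] [Algebra 𝒪 A], GaloisRepAdic A → Prop} (D : GaloisRep.DeformationRingData 𝒪 ρbar 𝒟) {N : ℕ} [NeZero N] {S : Set ℕ} {θ : CuspForm.heckeAlgebra N 2 S →+* IsLocalRing.ResidueField 𝒪} {T : Type} [CommRing T] [IsLocalRing T] [IsNoetherianRing T] [IsAdicComplete (IsLocalRing.maximalIdeal T) T] [Algebra 𝒪 T] [IsLocalHom (algebraMap 𝒪 T)] [Module.Finite 𝒪 T] [Module.Free 𝒪 T] (H : CuspForm.HeckeGaloisRepDatum N S 𝒪 θ T) (hS : ∀ q : ℕ, q.Prime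 → q ∣ N → q ∈ S) (h𝒟 : 𝒟 H.ρ) (hres : H.ρ.residual.IsEquiv (ρbar.baseChangeAlong (IsLocalRing.ResidueField.map (algebraMap 𝒪 T)))) : ∃ φ : D.R →ₐ[𝒪] T, Function.Surjective φ ∧ ∃ hφ : IsLocalHom (φ : D.R →+* T), (D.ρ.baseChangeAlong (φ : D.R →+* T) hφ).IsEquiv H.ρ := by
  obtain ⟨φ, ⟨hφ, ⟨e⟩⟩, -⟩ := D.universal T H.residue_surjective H.ρ h𝒟 hres
  refine ⟨φ, ?_, hφ, ⟨e⟩⟩
  rw [← AlgHom.range_eq_top, eq_top_iff, ← H.adjoin_range_π, Algebra.adjoin_le_iff]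
  rintro _ ⟨⟨x, hx⟩, rfl⟩
  show H.π ⟨x, hx⟩ ∈ φ.range
  induction hx using Algebra.adjoin_induction with
  | mem x hx =>
    rcases hx with ⟨ℓ, hℓ, hℓN, hℓS, rfl⟩ | ⟨q, hqN, hq, hqS, rfl⟩
    · obtain ⟨A, σ, hA, hσ⟩ := Fermat.Agent.Lib.FrobeniusExists.exists_frobenius hℓ
      have h1 := H.charpoly_frob ℓ hℓ hℓN hℓS A hA σ hσ
      rw [charpoly_eq_map_of_equiv (φ : D.R →+* T) hφ D.ρ H.ρ e σ] at h1
      have h2 := congrArg (fun p => p.coeff 1) h1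
      simp only [coeff_map, coeff_add, coeff_sub, coeff_X_pow, coeff_C_mul, coeff_X_one,
        coeff_C] at h2
      norm_num at h2
      refine ⟨-(LinearMap.charpoly (D.ρ.ρ σ)).coeff 1, ?_⟩
      have h3 : φ (-(LinearMap.charpoly (D.ρ.ρ σ)).coeff 1) =
          H.π (CuspForm.heckeAlgebra.T hℓ hℓN hℓS) := by
        rw [map_neg, h2, neg_neg]
      exact h3
    · exact absurd (hS q hq hqN) hqS
  | algebraMap r =>
    refine ⟨algebraMap ℤ D.R r, ?_⟩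
    rw [show (⟨algebraMap ℤ _ r, _⟩ : CuspForm.heckeAlgebra N 2 S) = algebraMap ℤ _ r from rfl]
    simp
  | add x y hx hy hx' hy' =>
    rw [show (⟨x + y, _⟩ : CuspForm.heckeAlgebra N 2 S) = ⟨x, hx⟩ + ⟨y, hy⟩ from rfl, map_add]
    exact add_mem hx' hy'
  | mul x y hx hy hx' hy' =>
    rw [show (⟨x * y, _⟩ : CuspForm.heckeAlgebra N 2 S) = ⟨x, hx⟩ * ⟨y, hy⟩ from rfl, map_mul]
    exact mul_mem hx' hy'

end Fermat.Agent.Alt.helper30
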